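import Fermat.Agent.S14.Frob.API

/-!
# S14 / Crossing / block [D]: residue field cardinalities, finiteness of the primes above `r`

* `card_quot_eq_pow_inertiaDeg`: `N 𝔔 = (N q) ^ f(𝔔|q)`.
* `finite_primes_containing`: finitely many primes of `𝓞 F` contain a given nonzero integer.
-/

set_option autoImplicit false

namespace Fermat.Agent.S14.Crossing

open NumberField
open scoped Pointwise

set_option linter.unusedVariables false in
/-- [T0] The residue field of `𝔔` has `(N q) ^ f(𝔔|q)` elements, `q = 𝔔 ∩ 𝓞 K`. -/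
theorem card_quot_eq_pow_inertiaDeg (K F : Type*) [Field K] [NumberField K] [Field F]
    [NumberField F] [Algebra K F] (𝔔 : Ideal (𝓞 F)) (h𝔔 : 𝔔.IsPrime) (h𝔔0 : 𝔔 ≠ ⊥) :
    Nat.card (𝓞 F ⧸ 𝔔) = Nat.card (𝓞 K ⧸ 𝔔.under (𝓞 K)) ^ (𝔔.inertiaDeg (𝓞 K)) := by
  have h := Ideal.absNorm_pow_inertiaDeg (𝔔.under (𝓞 K)) 𝔔
  rw [Ideal.absNorm_apply, Ideal.absNorm_apply, Submodule.cardQuot_apply,
    Submodule.cardQuot_apply] at h
  exact h.symm

/-- [D0] Only finitely many primes of `𝓞 F` contain a given nonzero natural number. -/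
theorem finite_primes_containing (F : Type*) [Field F] [NumberField F] (n : ℕ) (hn : n ≠ 0) :
    {ℜ : Ideal (𝓞 F) | ℜ.IsPrime ∧ ((n : ℕ) : 𝓞 F) ∈ ℜ}.Finite := by
  classical
  have hn' : ((n : ℕ) : 𝓞 F) ≠ 0 := Nat.cast_ne_zero.mpr hn
  have hI : Ideal.span {((n : ℕ) : 𝓞 F)} ≠ ⊥ := by
    rwa [Ne, Ideal.span_singleton_eq_bot]
  refine Set.Finite.subset (UniqueFactorizationMonoid.normalizedFactors
    (Ideal.span {((n : ℕ) : 𝓞 F)})).toFinset.finite_toSet ?_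
  rintro ℜ ⟨hℜ, hmem⟩
  rw [Finset.mem_coe, Multiset.mem_toFinset, Ideal.mem_normalizedFactors_iff hI]
  exact ⟨hℜ, (Ideal.span_singleton_le_iff_mem ℜ).mpr hmem⟩

end Fermat.Agent.S14.Crossing
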