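import Fermat.Agent.S14.Frob.API
import Fermat.Agent.S14.Crossing.Apply.Card

/-!
# S14 / Crossing / block [D]: generic tower lemmas

`K ⊆ F ⊆ M` number fields, `M/K` and `M/F` Galois.
* `exists_frob_pow`: if `M/K` is unramified at `𝔐` and `g` is the Frobenius of `M/K` at `𝔐`, then
  `g ^ f(𝔐 ∩ F | 𝔐 ∩ K)` fixes `F` and is the Frobenius of `M/F` at `𝔐`.
-/

set_option autoImplicit false

namespace Fermat.Agent.S14.Crossing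

open NumberField
open scoped Pointwise

/-- Powers of a Frobenius element: `g ^ k` acts as `x ↦ x ^ ((N q) ^ k)` modulo `𝔐`. -/
theorem tower_frob_pow_smul_sub_pow_mem (K M : Type*) [Field K] [NumberField K]
    [Field M] [NumberField M] [Algebra K M] [IsGalois K M]
    (𝔐 : Ideal (𝓞 M)) (g : M ≃ₐ[K] M) (hg : IsArithFrobAt (𝓞 K) g 𝔐) (k : ℕ) (x : 𝓞 M) :
    (g ^ k) • x - x ^ (Nat.card (𝓞 K ⧸ 𝔐.under (𝓞 K)) ^ k) ∈ 𝔐 := by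
  induction k generalizing x with
  | zero => simp
  | succ k ih =>
    have h1 := ih (g • x)
    have h2 : g • x - x ^ Nat.card (𝓞 K ⧸ 𝔐.under (𝓞 K)) ∈ 𝔐 := hg x
    have h3 : (g • x) ^ (Nat.card (𝓞 K ⧸ 𝔐.under (𝓞 K)) ^ k)
        - (x ^ Nat.card (𝓞 K ⧸ 𝔐.under (𝓞 K))) ^ (Nat.card (𝓞 K ⧸ 𝔐.under (𝓞 K)) ^ k) ∈ 𝔐 :=
      Ideal.mem_of_dvd 𝔐 (sub_dvd_pow_sub_pow _ _ _) h2
    have h4 := 𝔐.add_mem h1 h3
    rw [pow_succ g, mul_smul, pow_succ', pow_mul]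
    convert h4 using 1
    ring

/-- [T1] In a tower `K ⊆ F ⊆ M` with `M/K` unramified at `𝔐`: the `f`-th power of the Frobenius
`g` of `M/K` at `𝔐`, `f = f(𝔐 ∩ F | 𝔐 ∩ K)`, is (the image of) the Frobenius of `M/F` at `𝔐`. -/
theorem exists_frob_pow (K F M : Type*) [Field K] [NumberField K] [Field F] [NumberField F]
    [Field M] [NumberField M] [Algebra K F] [Algebra F M] [Algebra K M] [IsScalarTower K F M]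
    [IsGalois K M] [IsGalois F M]
    (𝔐 : Ideal (𝓞 M)) (h𝔐 : 𝔐.IsPrime) (h𝔐0 : 𝔐 ≠ ⊥) (hunr : UnramifiedAt K M 𝔐)
    (g : M ≃ₐ[K] M) (hg : IsArithFrobAt (𝓞 K) g 𝔐) :
    ∃ τ : M ≃ₐ[F] M, IsArithFrobAt (𝓞 F) τ 𝔐 ∧
      ∀ x : M, τ x = (g ^ ((𝔐.under (𝓞 F)).inertiaDeg (𝓞 K))) x := by
  have h𝔔 : (𝔐.under (𝓞 F)).IsPrime := Ideal.IsPrime.under (𝓞 F) 𝔐
  have h𝔔0 : 𝔐.under (𝓞 F) ≠ ⊥ := Ideal.under_ne_bot (𝓞 F) h𝔐0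
  have hu : (𝔐.under (𝓞 F)).under (𝓞 K) = 𝔐.under (𝓞 K) := Ideal.under_under 𝔐
  have hcard := card_quot_eq_pow_inertiaDeg K F (𝔐.under (𝓞 F)) h𝔔 h𝔔0
  rw [hu] at hcard
  obtain ⟨τ', hτ'⟩ := Frob.exists_isArithFrobAt F M 𝔐 h𝔐 h𝔐0
  refine ⟨τ', hτ', ?_⟩
  have hmem : (τ'.restrictScalars K) * (g ^ ((𝔐.under (𝓞 F)).inertiaDeg (𝓞 K)))⁻¹
      ∈ 𝔐.inertia (M ≃ₐ[K] M) := by
    intro x
    have h1 : τ' • ((g ^ ((𝔐.under (𝓞 F)).inertiaDeg (𝓞 K)))⁻¹ • x)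
        - ((g ^ ((𝔐.under (𝓞 F)).inertiaDeg (𝓞 K)))⁻¹ • x)
          ^ Nat.card (𝓞 F ⧸ 𝔐.under (𝓞 F)) ∈ 𝔐 := hτ' _
    have h2 := tower_frob_pow_smul_sub_pow_mem K M 𝔐 g hg
      ((𝔐.under (𝓞 F)).inertiaDeg (𝓞 K)) ((g ^ ((𝔐.under (𝓞 F)).inertiaDeg (𝓞 K)))⁻¹ • x)
    rw [hcard] at h1
    have h3 := 𝔐.sub_mem h1 h2
    rw [smul_inv_smul] at h3
    have hx : (τ'.restrictScalars K * (g ^ ((𝔐.under (𝓞 F)).inertiaDeg (𝓞 K)))⁻¹) • x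
        = τ' • ((g ^ ((𝔐.under (𝓞 F)).inertiaDeg (𝓞 K)))⁻¹ • x) := by
      rw [mul_smul]
      exact RingOfIntegers.ext rfl
    have h4 : τ' • ((g ^ ((𝔐.under (𝓞 F)).inertiaDeg (𝓞 K)))⁻¹ • x) - x ∈ 𝔐 := by
      convert h3 using 1
      ring
    rw [hx]
    exact h4
  rw [hunr, Subgroup.mem_bot] at hmem
  have heq : τ'.restrictScalars K = g ^ ((𝔐.under (𝓞 F)).inertiaDeg (𝓞 K)) :=
    mul_inv_eq_one.mp hmem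
  intro x
  rw [← heq]
  rfl

end Fermat.Agent.S14.Crossing
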