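import Fermat.Agent.S14.Crossing.NormChar
import Fermat.Agent.S14.Crossing.Apply.Tower

/-!
# S14 / Crossing / block [D]: primes of `K` whose Frobenius lies in `H` have a degree-one prime
of `F` above them

`q ∤ r` a prime of `K` with `β · e q = α · χ(N q)`; `𝔐` a prime of `M` above `q`, `g` the Frobenius
of `M/K` at `𝔐`; then `g` fixes `F` pointwise, so `x ^ N q ≡ x mod 𝔐 ∩ F` for all `x ∈ 𝓞 F`, hence
the residue field of `𝔔 := 𝔐 ∩ 𝓞 F` has at most `N q` elements, i.e. `f(𝔔|q) = 1`.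
-/

set_option autoImplicit false

namespace Fermat.Agent.S14.Crossing

open NumberField
open scoped Pointwise

/-- A finite field in which every element satisfies `t ^ N = t` (`1 < N`) has at most `N`
elements. -/
theorem degOne_card_le_of_pow_eq_self (k : Type*) [Field k] [Finite k] (N : ℕ) (hN : 1 < N)
    (h : ∀ t : k, t ^ N = t) : Nat.card k ≤ N := by
  classical
  have : Fintype k := Fintype.ofFinite k
  have hp : (Polynomial.X ^ N - Polynomial.X : Polynomial k) ≠ 0 :=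
    FiniteField.X_pow_card_sub_X_ne_zero k hN
  have hsub : (Finset.univ : Finset k).val ⊆
      (Polynomial.X ^ N - Polynomial.X : Polynomial k).roots := by
    intro t _
    rw [Polynomial.mem_roots hp, Polynomial.IsRoot.def, Polynomial.eval_sub, Polynomial.eval_pow,
      Polynomial.eval_X, h t, sub_self]
  have hcard := Polynomial.card_le_degree_of_subset_roots hsub
  rw [FiniteField.X_pow_card_sub_X_natDegree_eq k hN, Finset.card_univ] at hcard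
  rwa [Nat.card_eq_fintype_card]

theorem exists_degree_one_prime {p : ℕ} [Fact p.Prime]
    (K M F : Type) [Field K] [NumberField K] [Field M] [NumberField M] [Field F] [NumberField F]
    [Algebra K M] [Algebra K F] [Algebra F M] [IsScalarTower K F M] [IsGalois K M] [IsGalois F M]
    (a b : (M ≃ₐ[K] M) →* Multiplicative (ZMod p)) (α β : ZMod p)
    (hF : ∀ g : M ≃ₐ[K] M, β * Multiplicative.toAdd (a g) = α * Multiplicative.toAdd (b g) →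
        ∀ x : F, g (algebraMap F M x) = algebraMap F M x)
    (e : Ideal (𝓞 K) → ZMod p) (r : ℕ) (hr : r.Prime)
    (χ : (ZMod r)ˣ →* Multiplicative (ZMod p))
    (hM2 : ∀ Q : Ideal (𝓞 M), Q.IsPrime → Q ≠ ⊥ → ((r : ℕ) : 𝓞 M) ∉ Q →
        UnramifiedAt K M Q ∧
        ∀ g : M ≃ₐ[K] M, IsArithFrobAt (𝓞 K) g Q →
          a g = Multiplicative.ofAdd (e (Q.under (𝓞 K))) ∧
          ∀ u : (ZMod r)ˣ, (u : ZMod r) = (Nat.card (𝓞 K ⧸ Q.under (𝓞 K)) : ZMod r) →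
            b g = χ u)
    (q : Ideal (𝓞 K)) (hq : q.IsPrime) (hq0 : q ≠ ⊥) (hrq : ((r : ℕ) : 𝓞 K) ∉ q)
    (hq' : β * e q = α * normChar K χ q) :
    ∃ 𝔔 : Ideal (𝓞 F), 𝔔.IsPrime ∧ 𝔔 ≠ ⊥ ∧ ((r : ℕ) : 𝓞 F) ∉ 𝔔 ∧ 𝔔.under (𝓞 K) = q ∧
      𝔔.inertiaDeg (𝓞 K) = 1 := by
  classical
  have hqI : q.IsPrime := hq
  -- a prime `𝔐` of `𝓞 M` above `q`
  obtain ⟨𝔐, -, h𝔐, h𝔐q⟩ := Ideal.exists_ideal_over_prime_of_isIntegral (S := 𝓞 M) q
    (⊥ : Ideal (𝓞 M)) (by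
      rw [Ideal.comap_bot_of_injective _ (FaithfulSMul.algebraMap_injective (𝓞 K) (𝓞 M))]
      exact bot_le)
  have h𝔐q' : 𝔐.under (𝓞 K) = q := h𝔐q
  have h𝔐0 : 𝔐 ≠ ⊥ := by
    rintro rfl
    apply hq0
    rw [← h𝔐q]
    exact Ideal.comap_bot_of_injective _ (FaithfulSMul.algebraMap_injective (𝓞 K) (𝓞 M))
  have hr𝔐 : ((r : ℕ) : 𝓞 M) ∉ 𝔐 := by
    intro h
    apply hrq
    rw [← h𝔐q, Ideal.mem_comap, map_natCast]
    exact h
  -- the prime `𝔔 := 𝔐 ∩ 𝓞 F`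
  have h𝔔 : (𝔐.under (𝓞 F)).IsPrime := Ideal.comap_isPrime _ 𝔐
  have h𝔔0 : 𝔐.under (𝓞 F) ≠ ⊥ := Ideal.under_ne_bot (𝓞 F) h𝔐0
  have h𝔔q : (𝔐.under (𝓞 F)).under (𝓞 K) = q := by
    rw [Ideal.under_under, h𝔐q']
  have hr𝔔 : ((r : ℕ) : 𝓞 F) ∉ 𝔐.under (𝓞 F) := by
    intro h
    apply hr𝔐
    rw [Ideal.under_def, Ideal.mem_comap, map_natCast] at h
    exact h
  refine ⟨𝔐.under (𝓞 F), h𝔔, h𝔔0, hr𝔔, h𝔔q, ?_⟩
  -- the Frobenius `g` of `M/K` at `𝔐` lies in `H`, hence fixes `F` pointwise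
  obtain ⟨g, hg⟩ := Frob.exists_isArithFrobAt K M 𝔐 h𝔐 h𝔐0
  obtain ⟨hag, hbg⟩ := (hM2 𝔐 h𝔐 h𝔐0 hr𝔐).2 g hg
  rw [h𝔐q'] at hag hbg
  have hcop : Nat.Coprime (Nat.card (𝓞 K ⧸ q)) r := coprime_card_quot K r hr q hq hq0 hrq
  have hbg' : b g = χ (unitOfNat r (Nat.card (𝓞 K ⧸ q))) := hbg _ (coe_unitOfNat r _ hcop)
  have hfix : ∀ x : F, g (algebraMap F M x) = algebraMap F M x := by
    apply hF g
    rw [hag, hbg']
    exact hq'
  -- `x ^ N q ≡ x mod 𝔔` for all `x : 𝓞 F`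
  have hg' : ∀ x : 𝓞 M, g • x - x ^ Nat.card (𝓞 K ⧸ q) ∈ 𝔐 := by
    intro x
    have hx := hg x
    rw [h𝔐q'] at hx
    exact hx
  have hpow : ∀ x : 𝓞 F, x - x ^ Nat.card (𝓞 K ⧸ q) ∈ 𝔐.under (𝓞 F) := by
    intro x
    rw [Ideal.under_def, Ideal.mem_comap, map_sub, map_pow]
    have hx : g • algebraMap (𝓞 F) (𝓞 M) x = algebraMap (𝓞 F) (𝓞 M) x := by
      apply RingOfIntegers.ext
      exact hfix (x : F)
    have hx' := hg' (algebraMap (𝓞 F) (𝓞 M) x)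
    rwa [hx] at hx'
  -- the residue fields
  have hfinK : Finite (𝓞 K ⧸ q) := Ideal.finiteQuotientOfFreeOfNeBot q hq0
  have hntK : Nontrivial (𝓞 K ⧸ q) := Ideal.Quotient.nontrivial_iff.mpr hq.ne_top
  have hN : 1 < Nat.card (𝓞 K ⧸ q) := Finite.one_lt_card
  have hfinF : Finite (𝓞 F ⧸ 𝔐.under (𝓞 F)) := Ideal.finiteQuotientOfFreeOfNeBot _ h𝔔0
  have hmaxF : (𝔐.under (𝓞 F)).IsMaximal := Ring.DimensionLEOne.maximalOfPrime h𝔔0 h𝔔
  let fieldF : Field (𝓞 F ⧸ 𝔐.under (𝓞 F)) := Ideal.Quotient.field _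
  have hle : Nat.card (𝓞 F ⧸ 𝔐.under (𝓞 F)) ≤ Nat.card (𝓞 K ⧸ q) := by
    apply degOne_card_le_of_pow_eq_self _ _ hN
    intro t
    obtain ⟨x, rfl⟩ := Ideal.Quotient.mk_surjective t
    rw [← map_pow]
    exact ((Ideal.Quotient.eq).mpr (hpow x)).symm
  have hcard := card_quot_eq_pow_inertiaDeg K F (𝔐.under (𝓞 F)) h𝔔 h𝔔0
  rw [h𝔔q] at hcard
  rw [hcard] at hle
  have h1 : 1 < Nat.card (𝓞 F ⧸ 𝔐.under (𝓞 F)) := Finite.one_lt_card
  rw [hcard] at h1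
  -- `N ^ f ≤ N` and `1 < N ^ f` force `f = 1`
  have hf0 : (𝔐.under (𝓞 F)).inertiaDeg (𝓞 K) ≠ 0 := by
    intro h0
    rw [h0, pow_zero] at h1
    exact lt_irrefl _ h1
  have hf1 : (𝔐.under (𝓞 F)).inertiaDeg (𝓞 K) ≤ 1 := by
    by_contra hcon
    have hlt := Nat.pow_lt_pow_right hN (not_le.mp hcon)
    rw [pow_one] at hlt
    exact absurd hle (not_le.mpr hlt)
  omega

end Fermat.Agent.S14.Crossing
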