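import Fermat.Agent.S14.Frob.API

/-!
# S14 / Crossing / block [D]: the field `F := M ^ H`, `H := {g | β·a(g) = α·b(g)}`

`M/K` Galois with `(a, b) : Gal(M/K) ≃ (ZMod p)²`; `α ≠ 0`.  `H` has order `p`;
`F := IntermediateField.fixedField H` is a number field with `[M : F] = p = [F : K]`, `M/F` and
`F/K` Galois (`Gal(M/K)` is abelian), and `g ∈ Gal(M/K)` fixes `F` pointwise iff `g ∈ H`.
-/

set_option autoImplicit false

namespace Fermat.Agent.S14.Crossing

open NumberField
open scoped Pointwise

theorem exists_fixed_field {p : ℕ} [Fact p.Prime]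
    (K M : Type) [Field K] [NumberField K] [Field M] [NumberField M] [Algebra K M] [IsGalois K M]
    (a b : (M ≃ₐ[K] M) →* Multiplicative (ZMod p))
    (hinj : ∀ g : M ≃ₐ[K] M, a g = 1 → b g = 1 → g = 1)
    (hsurj : ∀ u v : Multiplicative (ZMod p), ∃ g : M ≃ₐ[K] M, a g = u ∧ b g = v)
    (α β : ZMod p) (hα : α ≠ 0) :
    ∃ (F : Type) (_ : Field F) (_ : NumberField F) (_ : Algebra K F) (_ : Algebra F M)
      (_ : IsScalarTower K F M) (_ : IsGalois F M) (_ : IsGalois K F),
      Module.finrank F M = p ∧ Module.finrank K F = p ∧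
      ∀ g : M ≃ₐ[K] M, (∀ x : F, g (algebraMap F M x) = algebraMap F M x) ↔
        β * Multiplicative.toAdd (a g) = α * Multiplicative.toAdd (b g) := by
  classical
  have hp : p.Prime := Fact.out
  have hp0 : 0 < p := hp.pos
  -- the pair map
  let φ : (M ≃ₐ[K] M) →* Multiplicative (ZMod p) × Multiplicative (ZMod p) := a.prod b
  have hφinj : Function.Injective φ := by
    rw [injective_iff_map_eq_one]
    intro g hg
    have h2 := Prod.ext_iff.mp hg
    exact hinj g h2.1 h2.2
  have hφsurj : Function.Surjective φ := by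
    rintro ⟨u, v⟩
    obtain ⟨g, hg1, hg2⟩ := hsurj u v
    exact ⟨g, Prod.ext hg1 hg2⟩
  have hcardZ : Nat.card (Multiplicative (ZMod p)) = p := by
    rw [Nat.card_congr Multiplicative.toAdd, Nat.card_zmod]
  have hcardG : Nat.card (M ≃ₐ[K] M) = p ^ 2 := by
    rw [Nat.card_congr (Equiv.ofBijective φ ⟨hφinj, hφsurj⟩), Nat.card_prod, hcardZ, sq]
  -- the hom ψ
  let ψ : (M ≃ₐ[K] M) →* Multiplicative (ZMod p) :=
    { toFun := fun g =>
        Multiplicative.ofAdd (β * Multiplicative.toAdd (a g) - α * Multiplicative.toAdd (b g))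
      map_one' := by simp
      map_mul' := by
        intro g h
        rw [← ofAdd_add]
        congr 1
        rw [a.map_mul, b.map_mul, toAdd_mul, toAdd_mul]
        ring }
  have hψ : ∀ g, ψ g = 1 ↔
      β * Multiplicative.toAdd (a g) = α * Multiplicative.toAdd (b g) := by
    intro g
    change Multiplicative.ofAdd _ = 1 ↔ _
    rw [ofAdd_eq_one, sub_eq_zero]
  have hψsurj : Function.Surjective ψ := by
    intro t
    obtain ⟨g, hg1, hg2⟩ := hsurj 1 (Multiplicative.ofAdd (-(Multiplicative.toAdd t) / α))
    refine ⟨g, ?_⟩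
    change Multiplicative.ofAdd _ = t
    rw [hg1, hg2]
    apply Multiplicative.toAdd.injective
    simp only [toAdd_one, mul_zero, toAdd_ofAdd, zero_sub]
    field_simp
  let H : Subgroup (M ≃ₐ[K] M) := ψ.ker
  have hHmem : ∀ g, g ∈ H ↔
      β * Multiplicative.toAdd (a g) = α * Multiplicative.toAdd (b g) := by
    intro g
    rw [← hψ g]
    exact MonoidHom.mem_ker
  have hindex : H.index = p := by
    rw [Subgroup.index_ker, MonoidHom.range_eq_top.mpr hψsurj,
      Nat.card_congr Subgroup.topEquiv.toEquiv, hcardZ]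
  have hcardH : Nat.card H = p := by
    have h1 := Subgroup.card_mul_index H
    rw [hindex, hcardG, sq] at h1
    exact Nat.eq_of_mul_eq_mul_right hp0 h1
  have hnormal : H.Normal := MonoidHom.normal_ker ψ
  have hFM : Module.finrank (IntermediateField.fixedField H) M = p := by
    rw [IntermediateField.finrank_fixedField_eq_card, hcardH]
  have hKM : Module.finrank K M = p ^ 2 := by
    rw [← IsGalois.card_aut_eq_finrank, hcardG]
  have hKF : Module.finrank K (IntermediateField.fixedField H) = p := by
    have h1 := Module.finrank_mul_finrank K (IntermediateField.fixedField H) M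
    rw [hFM, hKM, sq] at h1
    exact Nat.eq_of_mul_eq_mul_right hp0 h1
  refine ⟨↥(IntermediateField.fixedField H), inferInstance, inferInstance, inferInstance,
    inferInstance, inferInstance, inferInstance, inferInstance, hFM, hKF, ?_⟩
  intro g
  rw [← hHmem g]
  conv_rhs => rw [← IntermediateField.fixingSubgroup_fixedField H]
  rw [IntermediateField.mem_fixingSubgroup_iff]
  constructor
  · intro h x hx
    exact h ⟨x, hx⟩
  · intro h x
    exact h x.1 x.2

end Fermat.Agent.S14.Crossing
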