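import Fermat.Agent.S14.Crossing.NormChar
import Fermat.Agent.S14.Crossing.Apply.Tower

/-!
# S14 / Crossing / block [D]: Frobenius computations at primes `𝔔 ∤ r` of `F`

`𝔔` a prime of `F` not above `r`, `q = 𝔔 ∩ K`, `f = f(𝔔|q)`, `𝔐` a prime of `M` above `𝔔`,
`g` the Frobenius of `M/K` at `𝔐`: `a g = e q`, `b g = χ(N q)`; `g ^ f` is the Frobenius of `M/F`
at `𝔐` (`exists_frob_pow`), in particular fixes `F`.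
* `inertiaDeg_mul_eq_zero`: `f · (β · e q − α · χ(N q)) = 0`.
* `inertiaDeg_mul_e_eq_zero`: if `𝔔` splits completely in `M`, then `g ^ f = 1`, so `f · e q = 0`.
-/

set_option autoImplicit false

namespace Fermat.Agent.S14.Crossing

open NumberField
open scoped Pointwise

/-- Common start of the two lemmas of this file: a prime `𝔐` of `M` above `𝔔`, a Frobenius `g`
of `M/K` at `𝔐` with `a g = e q`, `b g = χ (N q)` (`q = 𝔔 ∩ K`), and a Frobenius `τ` of `M/F` at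
`𝔐` which is `g ^ f(𝔔 | q)`. -/
theorem split_exists_frob {p : ℕ} [Fact p.Prime]
    (K M F : Type) [Field K] [NumberField K] [Field M] [NumberField M] [Field F] [NumberField F]
    [Algebra K M] [Algebra K F] [Algebra F M] [IsScalarTower K F M] [IsGalois K M] [IsGalois F M]
    (a b : (M ≃ₐ[K] M) →* Multiplicative (ZMod p))
    (e : Ideal (𝓞 K) → ZMod p) (r : ℕ) (hr : r.Prime)
    (χ : (ZMod r)ˣ →* Multiplicative (ZMod p))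
    (hM2 : ∀ Q : Ideal (𝓞 M), Q.IsPrime → Q ≠ ⊥ → ((r : ℕ) : 𝓞 M) ∉ Q →
        UnramifiedAt K M Q ∧
        ∀ g : M ≃ₐ[K] M, IsArithFrobAt (𝓞 K) g Q →
          a g = Multiplicative.ofAdd (e (Q.under (𝓞 K))) ∧
          ∀ u : (ZMod r)ˣ, (u : ZMod r) = (Nat.card (𝓞 K ⧸ Q.under (𝓞 K)) : ZMod r) →
            b g = χ u)
    (𝔔 : Ideal (𝓞 F)) (h𝔔 : 𝔔.IsPrime) (h𝔔0 : 𝔔 ≠ ⊥) (hr𝔔 : ((r : ℕ) : 𝓞 F) ∉ 𝔔) :
    ∃ (𝔐 : Ideal (𝓞 M)) (g : M ≃ₐ[K] M) (τ : M ≃ₐ[F] M), 𝔐.IsPrime ∧ 𝔐.under (𝓞 F) = 𝔔 ∧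
      IsArithFrobAt (𝓞 F) τ 𝔐 ∧ (∀ x : M, τ x = (g ^ (𝔔.inertiaDeg (𝓞 K))) x) ∧
      a g = Multiplicative.ofAdd (e (𝔔.under (𝓞 K))) ∧
      Multiplicative.toAdd (b g) = normChar K χ (𝔔.under (𝓞 K)) := by
  -- a prime of `M` above `𝔔`
  obtain ⟨𝔐, -, h𝔐, h𝔐𝔔⟩ :=
    Ideal.exists_ideal_over_prime_of_isIntegral (S := 𝓞 M) 𝔔 (⊥ : Ideal (𝓞 M))
      (by simp)
  have h𝔐under : 𝔐.under (𝓞 F) = 𝔔 := h𝔐𝔔
  have h𝔐0 : 𝔐 ≠ ⊥ := by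
    rintro rfl
    apply h𝔔0
    rw [← h𝔐under]
    exact Ideal.under_bot (𝓞 F) (𝓞 M)
  have hr𝔐 : ((r : ℕ) : 𝓞 M) ∉ 𝔐 := by
    intro h
    apply hr𝔔
    rw [← h𝔐under, Ideal.under_def, Ideal.mem_comap, map_natCast]
    exact h
  have hKunder : 𝔐.under (𝓞 K) = 𝔔.under (𝓞 K) := by
    rw [← h𝔐under, Ideal.under_under]
  obtain ⟨g, hg⟩ := Frob.exists_isArithFrobAt K M 𝔐 h𝔐 h𝔐0
  obtain ⟨hunr, hfrob⟩ := hM2 𝔐 h𝔐 h𝔐0 hr𝔐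
  obtain ⟨hag, hbg⟩ := hfrob g hg
  obtain ⟨τ, hτ, hτg⟩ := exists_frob_pow K F M 𝔐 h𝔐 h𝔐0 hunr g hg
  have hq : (𝔔.under (𝓞 K)).IsPrime := Ideal.IsPrime.under (𝓞 K) 𝔔
  have hq0 : 𝔔.under (𝓞 K) ≠ ⊥ := Ideal.under_ne_bot (𝓞 K) h𝔔0
  have hrq : ((r : ℕ) : 𝓞 K) ∉ 𝔔.under (𝓞 K) := by
    intro h
    apply hr𝔔
    rw [Ideal.under_def, Ideal.mem_comap, map_natCast] at h
    exact h
  refine ⟨𝔐, g, τ, h𝔐, h𝔐under, hτ, ?_, ?_, ?_⟩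
  · intro x
    rw [hτg x, h𝔐under]
  · rw [hag, hKunder]
  · rw [normChar, hbg (unitOfNat r (Nat.card (𝓞 K ⧸ 𝔔.under (𝓞 K)))) ?_]
    rw [hKunder]
    exact coe_unitOfNat r _ (coprime_card_quot K r hr _ hq hq0 hrq)

theorem inertiaDeg_mul_eq_zero {p : ℕ} [Fact p.Prime]
    (K M F : Type) [Field K] [NumberField K] [Field M] [NumberField M] [Field F] [NumberField F]
    [Algebra K M] [Algebra K F] [Algebra F M] [IsScalarTower K F M] [IsGalois K M] [IsGalois F M]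
    (a b : (M ≃ₐ[K] M) →* Multiplicative (ZMod p)) (α β : ZMod p)
    (hF : ∀ g : M ≃ₐ[K] M, (∀ x : F, g (algebraMap F M x) = algebraMap F M x) →
        β * Multiplicative.toAdd (a g) = α * Multiplicative.toAdd (b g))
    (e : Ideal (𝓞 K) → ZMod p) (r : ℕ) (hr : r.Prime)
    (χ : (ZMod r)ˣ →* Multiplicative (ZMod p))
    (hM2 : ∀ Q : Ideal (𝓞 M), Q.IsPrime → Q ≠ ⊥ → ((r : ℕ) : 𝓞 M) ∉ Q →
        UnramifiedAt K M Q ∧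
        ∀ g : M ≃ₐ[K] M, IsArithFrobAt (𝓞 K) g Q →
          a g = Multiplicative.ofAdd (e (Q.under (𝓞 K))) ∧
          ∀ u : (ZMod r)ˣ, (u : ZMod r) = (Nat.card (𝓞 K ⧸ Q.under (𝓞 K)) : ZMod r) →
            b g = χ u)
    (𝔔 : Ideal (𝓞 F)) (h𝔔 : 𝔔.IsPrime) (h𝔔0 : 𝔔 ≠ ⊥) (hr𝔔 : ((r : ℕ) : 𝓞 F) ∉ 𝔔) :
    ((𝔔.inertiaDeg (𝓞 K) : ℕ) : ZMod p) *
      (β * e (𝔔.under (𝓞 K)) - α * normChar K χ (𝔔.under (𝓞 K))) = 0 := by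
  obtain ⟨𝔐, g, τ, h𝔐, h𝔐under, hτ, hτg, hag, hbg⟩ :=
    split_exists_frob K M F a b e r hr χ hM2 𝔔 h𝔔 h𝔔0 hr𝔔
  have hfix : ∀ x : F, (g ^ (𝔔.inertiaDeg (𝓞 K))) (algebraMap F M x) = algebraMap F M x := by
    intro x
    rw [← hτg, τ.commutes]
  have h := hF _ hfix
  rw [map_pow a, map_pow b, toAdd_pow, toAdd_pow, hag, hbg, toAdd_ofAdd, nsmul_eq_mul,
    nsmul_eq_mul] at h
  linear_combination h

theorem inertiaDeg_mul_e_eq_zero {p : ℕ} [Fact p.Prime]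
    (K M F : Type) [Field K] [NumberField K] [Field M] [NumberField M] [Field F] [NumberField F]
    [Algebra K M] [Algebra K F] [Algebra F M] [IsScalarTower K F M] [IsGalois K M] [IsGalois F M]
    (a b : (M ≃ₐ[K] M) →* Multiplicative (ZMod p))
    (e : Ideal (𝓞 K) → ZMod p) (r : ℕ) (hr : r.Prime)
    (χ : (ZMod r)ˣ →* Multiplicative (ZMod p))
    (hM2 : ∀ Q : Ideal (𝓞 M), Q.IsPrime → Q ≠ ⊥ → ((r : ℕ) : 𝓞 M) ∉ Q →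
        UnramifiedAt K M Q ∧
        ∀ g : M ≃ₐ[K] M, IsArithFrobAt (𝓞 K) g Q →
          a g = Multiplicative.ofAdd (e (Q.under (𝓞 K))) ∧
          ∀ u : (ZMod r)ˣ, (u : ZMod r) = (Nat.card (𝓞 K ⧸ Q.under (𝓞 K)) : ZMod r) →
            b g = χ u)
    (𝔔 : Ideal (𝓞 F)) (h𝔔 : 𝔔.IsPrime) (h𝔔0 : 𝔔 ≠ ⊥) (hr𝔔 : ((r : ℕ) : 𝓞 F) ∉ 𝔔)
    (hs : SplitsCompletely F M 𝔔) :
    ((𝔔.inertiaDeg (𝓞 K) : ℕ) : ZMod p) * e (𝔔.under (𝓞 K)) = 0 := by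
  obtain ⟨𝔐, g, τ, h𝔐, h𝔐under, hτ, hτg, hag, -⟩ :=
    split_exists_frob K M F a b e r hr χ hM2 𝔔 h𝔔 h𝔔0 hr𝔔
  have hstab : MulAction.stabilizer (M ≃ₐ[F] M) 𝔐 = ⊥ := hs 𝔐 h𝔐 ⟨h𝔐under.symm⟩
  have hτmem : τ ∈ MulAction.stabilizer (M ≃ₐ[F] M) 𝔐 :=
    Frob.isArithFrobAt_mem_stabilizer F M 𝔐 h𝔐 hτ
  rw [hstab, Subgroup.mem_bot] at hτmem
  have hg1 : g ^ (𝔔.inertiaDeg (𝓞 K)) = 1 := by
    apply AlgEquiv.ext
    intro x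
    rw [← hτg, hτmem]
    rfl
  have h := congrArg (fun t => Multiplicative.toAdd (a t)) hg1
  simp only [map_pow, map_one, toAdd_pow, toAdd_one, hag, toAdd_ofAdd, nsmul_eq_mul] at h
  exact h

end Fermat.Agent.S14.Crossing
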