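import Fermat.Agent.S14.Frob.API

/-!
# S14 / Crossing / block [D]: `M/F` is unramified everywhere

Outside `r`: `M/K` is unramified (restrict to the subgroup `Gal(M/F)`).  Above `r`: an inertia
element `τ` of `M/F`, viewed in `Gal(M/K)`, is an inertia element `g` of `M/K`, so `a g = 1`;
it fixes `F`, so `β·a(g) = α·b(g)`, hence `b g = 1` (`α ≠ 0`), hence `g = 1`.
-/

set_option autoImplicit false

namespace Fermat.Agent.S14.Crossing

open NumberField
open scoped Pointwise

theorem unramifiedEverywhere_of_tower {p : ℕ} [Fact p.Prime]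
    (K M F : Type) [Field K] [NumberField K] [Field M] [NumberField M] [Field F] [NumberField F]
    [Algebra K M] [Algebra K F] [Algebra F M] [IsScalarTower K F M] [IsGalois K M] [IsGalois F M]
    (a b : (M ≃ₐ[K] M) →* Multiplicative (ZMod p)) (α β : ZMod p) (hα : α ≠ 0)
    (hinj : ∀ g : M ≃ₐ[K] M, a g = 1 → b g = 1 → g = 1)
    (hF : ∀ g : M ≃ₐ[K] M, (∀ x : F, g (algebraMap F M x) = algebraMap F M x) →
        β * Multiplicative.toAdd (a g) = α * Multiplicative.toAdd (b g))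
    (r : ℕ)
    (hunr : ∀ Q : Ideal (𝓞 M), Q.IsPrime → Q ≠ ⊥ → ((r : ℕ) : 𝓞 M) ∉ Q → UnramifiedAt K M Q)
    (hin : ∀ Q : Ideal (𝓞 M), Q.IsPrime → ((r : ℕ) : 𝓞 M) ∈ Q →
        ∀ g ∈ Q.inertia (M ≃ₐ[K] M), a g = 1) :
    UnramifiedEverywhere F M := by
  intro 𝔐 h𝔐 h𝔐0
  by_cases hr𝔐 : ((r : ℕ) : 𝓞 M) ∈ 𝔐
  · -- above `r`
    unfold UnramifiedAt
    rw [Subgroup.eq_bot_iff_forall]
    intro τ hτ
    -- view `τ` as an element of `Gal(M/K)`
    set g : M ≃ₐ[K] M := τ.restrictScalars K with hg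
    have hsmul : ∀ x : 𝓞 M, g • x = τ • x := fun x => rfl
    have hg_in : g ∈ 𝔐.inertia (M ≃ₐ[K] M) := by
      intro x
      rw [hsmul x]
      exact hτ x
    have ha : a g = 1 := hin 𝔐 h𝔐 hr𝔐 g hg_in
    have hfix : ∀ x : F, g (algebraMap F M x) = algebraMap F M x := fun x => τ.commutes x
    have h1 := hF g hfix
    rw [ha, toAdd_one, mul_zero] at h1
    have hb0 : Multiplicative.toAdd (b g) = 0 := by
      rcases mul_eq_zero.1 h1.symm with h | h
      · exact absurd h hα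
      · exact h
    have hb : b g = 1 := by
      apply Multiplicative.toAdd.injective
      rw [hb0, toAdd_one]
    have hg1 : g = 1 := hinj g ha hb
    ext x
    have : g x = x := by rw [hg1]; rfl
    exact this
  · -- outside `r`
    exact Frob.unramifiedAt_of_tower K F M 𝔐 (hunr 𝔐 h𝔐 h𝔐0 hr𝔐)

end Fermat.Agent.S14.Crossing
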