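import Fermat.Agent.S14.Frob.API
import Fermat.Agent.S14.Frob.Extra

/-!
# S14 / Crossing / block [D]: `N_{F/K} y ≡ u ^ p` modulo the primes above `r`

`F/K` is totally ramified above `r`: let `𝔯 ∣ r` be a prime of `K`, `ℜ` a prime of `F` above `𝔯`,
`𝔐` a prime of `M` above `ℜ`.  By (M3) there is `g₀` in the inertia group of `𝔐` in `M/K` with
`a g₀ = 1`, `b g₀ ≠ 1`; it does not fix `F` (else `0 = α · b(g₀)`), so its restriction `γ` to `F`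
generates `Gal(F/K)` (of prime order `p`), and every `δ ∈ Gal(F/K)` acts trivially on `𝓞 F ⧸ ℜ`.
Hence `N_{F/K} y = ∏_δ δ y ≡ y ^ p mod ℜ`, and (the Frobenius of `F/K` at `ℜ` acting trivially)
`x ^ N𝔯 ≡ x mod ℜ` for all `x ∈ 𝓞 F`, so `𝓞 K ⧸ 𝔯 → 𝓞 F ⧸ ℜ` is onto: `y ≡ u mod ℜ`, `u ∈ 𝓞 K`.
-/

set_option autoImplicit false

namespace Fermat.Agent.S14.Crossing

open NumberField
open scoped Pointwise

theorem intNorm_congr_pow {p : ℕ} [Fact p.Prime]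
    (K M F : Type) [Field K] [NumberField K] [Field M] [NumberField M] [Field F] [NumberField F]
    [Algebra K M] [Algebra K F] [Algebra F M] [IsScalarTower K F M] [IsGalois K M] [IsGalois F M]
    [IsGalois K F] (hKF : Module.finrank K F = p)
    (a b : (M ≃ₐ[K] M) →* Multiplicative (ZMod p)) (α β : ZMod p) (hα : α ≠ 0)
    (hF : ∀ g : M ≃ₐ[K] M, (∀ x : F, g (algebraMap F M x) = algebraMap F M x) →
        β * Multiplicative.toAdd (a g) = α * Multiplicative.toAdd (b g))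
    (r : ℕ) (hr : r.Prime)
    (hM3 : ∀ Q : Ideal (𝓞 M), Q.IsPrime → ((r : ℕ) : 𝓞 M) ∈ Q →
        (∀ g ∈ Q.inertia (M ≃ₐ[K] M), a g = 1) ∧
        ∃ g ∈ Q.inertia (M ≃ₐ[K] M), b g ≠ 1)
    (𝔯 : Ideal (𝓞 K)) (h𝔯 : 𝔯.IsPrime) (hr𝔯 : ((r : ℕ) : 𝓞 K) ∈ 𝔯) (y : 𝓞 F) :
    ∃ u : 𝓞 K, Algebra.intNorm (𝓞 K) (𝓞 F) y - u ^ p ∈ 𝔯 ∧
      ((∀ ℜ : Ideal (𝓞 F), ℜ.IsPrime → ((r : ℕ) : 𝓞 F) ∈ ℜ → y ∉ ℜ) → u ∉ 𝔯) := by
  classical
  -- (a) primes `ℜ` of `F` above `𝔯` and `𝔐` of `M` above `ℜ`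
  obtain ⟨ℜ, hℜ, hℜ𝔯⟩ := Frob.exists_isPrime_liesOver K F 𝔯 h𝔯
  obtain ⟨𝔐, h𝔐, h𝔐ℜ⟩ := Frob.exists_isPrime_liesOver F M ℜ hℜ
  have hℜu : ℜ.under (𝓞 K) = 𝔯 := hℜ𝔯.over.symm
  have h𝔐u : 𝔐.under (𝓞 F) = ℜ := h𝔐ℜ.over.symm
  have hrℜ : ((r : ℕ) : 𝓞 F) ∈ ℜ := by
    rw [← Frob.natCast_mem_under_iff K F ℜ r, hℜu]
    exact hr𝔯
  have hr𝔐 : ((r : ℕ) : 𝓞 M) ∈ 𝔐 := by
    rw [← Frob.natCast_mem_under_iff F M 𝔐 r, h𝔐u]
    exact hrℜ
  have hℜ0 : ℜ ≠ ⊥ := by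
    rintro rfl
    have h0 : ((r : ℕ) : 𝓞 F) = 0 := by simpa using hrℜ
    exact hr.ne_zero (by exact_mod_cast h0)
  -- (b) an inertia element not fixing `F`
  obtain ⟨ha, g₀, hg₀, hbg₀⟩ := hM3 𝔐 h𝔐 hr𝔐
  have hag₀ : a g₀ = 1 := ha g₀ hg₀
  have hnfix : ¬ ∀ x : F, g₀ (algebraMap F M x) = algebraMap F M x := by
    intro hfix
    have h1 := hF g₀ hfix
    rw [hag₀, toAdd_one, mul_zero] at h1
    have h2 : Multiplicative.toAdd (b g₀) = 0 := by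
      rcases mul_eq_zero.1 h1.symm with h | h
      · exact absurd h hα
      · exact h
    exact hbg₀ (by simpa using h2)
  -- (c) its restriction generates `Gal(F/K)`
  set γ : F ≃ₐ[K] F := g₀.restrictNormal F with hγ
  have hγ1 : γ ≠ 1 := by
    intro h1
    apply hnfix
    intro x
    have := AlgEquiv.restrictNormal_commutes g₀ F x
    rw [← hγ, h1] at this
    simpa using this.symm
  have hγI : γ ∈ ℜ.inertia (F ≃ₐ[K] F) := by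
    have := Frob.restrictNormal_mem_inertia K F M 𝔐 hg₀
    rwa [h𝔐u] at this
  have hcard : Nat.card (F ≃ₐ[K] F) = p := by
    rw [IsGalois.card_aut_eq_finrank, hKF]
  have hItop : ℜ.inertia (F ≃ₐ[K] F) = ⊤ := by
    have : Fact (Nat.card (F ≃ₐ[K] F)).Prime := ⟨by rw [hcard]; exact Fact.out⟩
    rcases Subgroup.eq_bot_or_eq_top_of_prime_card (ℜ.inertia (F ≃ₐ[K] F)) with h | h
    · rw [h, Subgroup.mem_bot] at hγI
      exact absurd hγI hγ1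
    · exact h
  -- (e) norm ≡ p-th power, (f) residue field does not grow
  have hN := Frob.intNorm_sub_pow_mem_of_inertia_eq_top K F ℜ hItop y
  rw [hKF] at hN
  obtain ⟨u, hu⟩ := Frob.exists_sub_mem_of_inertia_eq_top K F ℜ hℜ hℜ0 hItop y
  refine ⟨u, ?_, ?_⟩
  · rw [← hℜu, Ideal.under_def, Ideal.mem_comap, map_sub, map_pow]
    have h3 : y ^ p - (algebraMap (𝓞 K) (𝓞 F) u) ^ p ∈ ℜ := by
      have := sub_dvd_pow_sub_pow y (algebraMap (𝓞 K) (𝓞 F) u) p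
      exact Ideal.mem_of_dvd _ this hu
    have := ℜ.add_mem hN h3
    simpa using this
  · intro hy hu𝔯
    apply hy ℜ hℜ hrℜ
    have h4 : algebraMap (𝓞 K) (𝓞 F) u ∈ ℜ := by
      rw [← hℜu] at hu𝔯
      exact hu𝔯
    have := ℜ.add_mem hu h4
    simpa using this

end Fermat.Agent.S14.Crossing
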